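import Fermat.Agent.LeastPrimeIdeal.Primes

/-!
# The least prime ideal in a Frobenius class

After Lagarias, Montgomery and Odlyzko. At `b = k / (P H)` the smoothed sum is
`share / b ^ (k + 1)` times at least `1 - (b / (b + δ)) ^ (k + 1)`, `δ` the distance of the exceptional
zero from `1`, the other zeros being repelled, while without unramified primes of the class up to
`exp (10 P H)` it is smaller once `k` is about `log (1 / (δ H))`.
-/

set_option autoImplicit false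
set_option linter.style.haveILetI false
set_option linter.unusedSectionVars false

noncomputable section

universe u v

open NumberField IsDedekindDomain Module Finset
open FA.DedekindZF (height zfrC zfrC_pos one_le_height)
open FA.ChebError (share mangoldtF)
open FA.EffCheb (goodFrobSet)
open scoped Real Nat Classical

namespace FA.LMO

variable {K L : Type*} [Field K] [NumberField K] [Field L] [NumberField L] [Algebra K L]
variable [IsGalois K L]

theorem rest_le {H P b : ℝ} {k : ℕ} (hk : 1 ≤ k) (hH : 1 ≤ H) (hP : 0 < P) (hb0 : 0 ≤ b)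
    (hb : b * (P * H) ≤ k) (h4 : 4 * b ≤ Real.exp (-6)) {Y : ℝ} (hY : 0 ≤ Y)
    (hYP : 16 * Y ≤ P ^ 2) :
    Y * ((k : ℝ) + 1) * H ^ 2 * (4 * b) ^ (k + 1) ≤ Real.exp (6 - 3 * k) := by
  have hke : (k : ℝ) + 1 ≤ Real.exp k := Real.add_one_le_exp _
  have h1 : H * b ≤ k / P := by rw [le_div_iff₀ hP]; linarith
  have h2 : 16 * Y * (H * b) ^ 2 ≤ (k : ℝ) ^ 2 := by
    refine (mul_le_mul_of_nonneg_left (pow_le_pow_left₀ (by positivity) h1 2) (by positivity)).trans ?_
    rw [div_pow, ← mul_div_assoc, div_le_iff₀ (by positivity)]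
    nlinarith [sq_nonneg (k : ℝ)]
  obtain ⟨i, rfl⟩ : ∃ i, k = i + 1 := ⟨k - 1, by omega⟩
  calc Y * (((i + 1 : ℕ) : ℝ) + 1) * H ^ 2 * (4 * b) ^ (i + 1 + 1)
      = 16 * Y * (H * b) ^ 2 * (((i + 1 : ℕ) : ℝ) + 1) * (4 * b) ^ i := by ring
    _ ≤ ((i + 1 : ℕ) : ℝ) ^ 2 * (((i + 1 : ℕ) : ℝ) + 1) * Real.exp (-6) ^ i := by
        refine mul_le_mul (mul_le_mul_of_nonneg_right h2 (by positivity))
          (pow_le_pow_left₀ (by positivity) h4 i) (by positivity) (by positivity)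
    _ ≤ Real.exp ((i + 1 : ℕ) : ℝ) ^ 2 * Real.exp ((i + 1 : ℕ) : ℝ) * Real.exp (-6) ^ i := by
        gcongr
        linarith
    _ = _ := by
        rw [← Real.exp_nat_mul, ← Real.exp_nat_mul, ← Real.exp_add, ← Real.exp_add]
        push_cast
        ring_nf

theorem zeros_le {θ : ℝ} (hθ0 : 0 ≤ θ) (hθ : θ ≤ Real.exp (-4)) {k : ℕ} (hk : 1 ≤ k) {Z : ℝ}
    (hZ0 : 0 ≤ Z) (hZ : Z ≤ k + 1) : θ ^ (k - 1) * Z ≤ Real.exp (6 - 3 * k) := by
  refine (mul_le_mul (pow_le_pow_left₀ hθ0 hθ _) (hZ.trans (Real.add_one_le_exp _)) hZ0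
    (by positivity)).trans ?_
  rw [← Real.exp_nat_mul, ← Real.exp_add, Real.exp_le_exp, Nat.cast_sub hk, Nat.cast_one]
  linarith

theorem eta_le {δ b e : ℝ} {k : ℕ} (hb : 0 < b) (hδ : 0 ≤ δ) (he0 : 0 ≤ e) (he1 : e ≤ 1)
    (he : e * b ≤ (k + 1) * δ) : (b / (b + δ)) ^ (k + 1) ≤ 1 - e / 2 := by
  obtain ⟨u, hu⟩ : ∃ u, u = δ / b := ⟨_, rfl⟩
  have hu0 : 0 ≤ u := hu ▸ div_nonneg hδ hb.le
  have h1 : b / (b + δ) = (1 + u)⁻¹ := by rw [hu]; field_simp
  have h2 : 1 + e ≤ (1 + u) ^ (k + 1) := by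
    refine le_trans ?_ (one_add_mul_le_pow (by linarith) (k + 1))
    have : e ≤ ((k : ℝ) + 1) * u := by
      rw [hu, ← mul_div_assoc, le_div_iff₀ hb]
      exact he
    push_cast
    linarith
  rw [h1, inv_pow]
  refine (inv_anti₀ (by linarith) h2).trans ?_
  rw [inv_le_iff_one_le_mul₀ (by linarith)]
  nlinarith

/-- What the parameters must satisfy. -/
structure Admissible (L : Type*) [Field L] [NumberField L] (P b : ℝ) (k : ℕ) : Prop where
  one_le : 1 ≤ k
  b_eq : b * (P * height L 0) = k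
  b_pos : 0 < b
  small : 4 * b ≤ Real.exp (-6)
  bigQ : 24 * nearQ ≤ P
  bigQ2 : 16 * (6 * nearQ) ≤ P ^ 2
  bigC : 16 * (powC + 1) ≤ P ^ 2

theorem Admissible.restTerm_le {P b : ℝ} {k : ℕ} (h : Admissible L P b k) :
    restTerm L k b ≤ Real.exp (6 - 3 * k) := by
  have hP : 0 < P := by linarith [h.bigQ, nearQ_pos]
  have := rest_le h.one_le (one_le_height L 0) hP h.b_pos.le h.b_eq.le h.small
    (by linarith [nearQ_pos]) h.bigQ2
  rw [restTerm]
  linarith

theorem Admissible.density_le {P b : ℝ} {k : ℕ} (h : Admissible L P b k) :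
    1 + 24 * nearQ * height L 0 * b ≤ k + 1 := by
  have h1 := mul_le_mul_of_nonneg_right h.bigQ
    (show 0 ≤ height L 0 * b from mul_nonneg (zero_le_one.trans (one_le_height L 0)) h.b_pos.le)
  linarith [h.b_eq]

variable {C : Set (L ≃ₐ[K] L)} (hC : ∀ g ∈ C, ∀ x, x * g * x⁻¹ ∈ C)
  {E : ℂ → ℂ} (hE : Differentiable ℂ E)
  (hEL : ∀ s : ℂ, 1 < s.re → E s = (s - 1) * dedekindZeta L s)

include hC hE hEL in
/-- **No unramified prime of the class below `exp (10 P H)` bounds the smoothed sum.** -/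
theorem moment_le_of_no_prime (hne : C.Nonempty) {P b : ℝ} {k : ℕ} (h : Admissible L P b k)
    (hk2 : 2 ≤ k)
    (hno : ∀ v ∈ goodFrobSet C, Real.exp (10 * (P * height L 0)) < Ideal.absNorm v.asIdeal) :
    moment C k b * b ^ (k + 1) ≤ share C * (2 * Real.exp (6 - 3 * k)) := by
  obtain ⟨X, hX⟩ : ∃ X, X = 10 * (P * height L 0) := ⟨_, rfl⟩
  rw [← hX] at hno
  have hP : 0 < P := by linarith [h.bigQ, nearQ_pos]
  have hH := one_le_height L 0
  have hσ := FA.EffCheb.share_pos hne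
  have hb := h.b_pos
  have hXb : X * (b / 2) = 5 * k := by rw [hX, ← h.b_eq]; ring
  have hX1 : 1 ≤ Real.exp X := Real.one_le_exp (by rw [hX]; positivity)
  obtain ⟨hs, -⟩ := hasSum_moment hC k hb
  obtain ⟨hs2, -⟩ := hasSum_moment hC k (half_pos hb)
  -- the split at `exp X`
  have hpt : ∀ n, wgt k b n * mangoldtF C n ≤
      (if n ∈ range (⌊Real.exp X⌋₊ + 1) then wgt k b n * mangoldtF C n else 0) +
        Real.exp (-(X * (b / 2))) * (wgt k (b / 2) n * mangoldtF C n) := fun n => by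
    have h0 := mul_nonneg (Real.exp_pos (-(X * (b / 2)))).le
      (mul_nonneg (wgt_nonneg k (b / 2) n) (FA.ChebError.mangoldtF_nonneg C n))
    split_ifs with hn
    · linarith
    rw [Finset.mem_range, not_lt] at hn
    rw [zero_add, ← mul_assoc]
    refine mul_le_mul_of_nonneg_right (wgt_le_tail k hb.le ?_) (FA.ChebError.mangoldtF_nonneg C n)
    exact (Nat.lt_floor_add_one (Real.exp X)).le.trans (by exact_mod_cast hn)
  have hsI : HasSum (fun n => if n ∈ range (⌊Real.exp X⌋₊ + 1) then wgt k b n * mangoldtF C n else 0)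
      (∑ n ∈ range (⌊Real.exp X⌋₊ + 1), wgt k b n * mangoldtF C n) := by
    have hfin := hasSum_sum_of_ne_finset_zero (L := SummationFilter.unconditional ℕ)
      (f := fun n => if n ∈ range (⌊Real.exp X⌋₊ + 1) then wgt k b n * mangoldtF C n else 0)
      (s := range (⌊Real.exp X⌋₊ + 1)) fun n hn => if_neg hn
    rwa [sum_congr rfl fun n hn => if_pos hn] at hfin
  have hle := hasSum_le hpt hs (hsI.add (hs2.mul_left _))
  -- the sum to `exp X`
  have hbad := mul_le_mul_of_nonneg_right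
    (sum_wgt_le_of_no_prime hC hne k hb.le hX1 hno) (pow_nonneg hb.le (k + 1))
  have hbad' : share C * (4 ^ k * ((powC + 1) * height L 0 ^ 2)) * b ^ (k + 1) ≤
      share C * Real.exp (6 - 3 * k) := by
    rw [mul_assoc]
    refine mul_le_mul_of_nonneg_left ?_ hσ.le
    refine le_trans ?_ (rest_le h.one_le hH hP hb.le h.b_eq.le h.small (by linarith [powC_nonneg]) h.bigC)
    rw [mul_pow 4 b, pow_succ (4 : ℝ) k]
    have h0 : (0 : ℝ) ≤ (powC + 1) * height L 0 ^ 2 * (4 ^ k * b ^ (k + 1)) := by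
      have := powC_nonneg
      positivity
    nlinarith [mul_nonneg h0 (Nat.cast_nonneg k : (0 : ℝ) ≤ k)]
  -- the tail
  have hB : ∀ g ∈ C, ∑ ψ : FA.ChebError.CycDual g,
      ‖iteratedDeriv k (logDeriv (FA.EffCheb.cycL ⟨g, ψ⟩)) ((1 + b / 2 : ℝ) : ℂ)‖ * (b / 2) ^ (k + 1) /
        k ! ≤ k + 2 := fun g _ => by
    have hb4 : b ≤ 1 / 4 := by
      have : Real.exp (-6) ≤ 1 := Real.exp_le_one_iff.2 (by norm_num)
      linarith [h.small]
    refine ((sum_pair_le hE hEL g h.one_le (half_pos hb) (by linarith) le_rfl).1 fun ρ hρ _ =>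
      sub_nonneg.2 (not_le.1 fun hh => FA.DedekindZF.cleared_ne_zero hE hEL hh hρ).le).trans ?_
    rw [add_zero, div_self (half_pos hb).ne', one_pow, one_mul]
    have h1 := h.density_le
    have hQH := mul_nonneg nearQ_pos.le (zero_le_one.trans hH)
    have h2 : restTerm L k (b / 2) ≤ restTerm L k b := by
      rw [restTerm, restTerm]
      gcongr
      linarith
    have h3 : Real.exp (6 - 3 * k) ≤ 1 := Real.exp_le_one_iff.2 (by
      have : (2 : ℝ) ≤ k := by exact_mod_cast hk2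
      linarith)
    have h4 := h.restTerm_le
    nlinarith
  have hm := (abs_le.1 (abs_moment_sub_le hC k (half_pos hb) hB)).2
  have htail : Real.exp (-(X * (b / 2))) * moment C k (b / 2) * b ^ (k + 1) ≤
      share C * Real.exp (6 - 3 * k) := by
    rw [show b ^ (k + 1) = 2 ^ (k + 1) * (b / 2) ^ (k + 1) by rw [← mul_pow]; ring_nf,
      show Real.exp (-(X * (b / 2))) * moment C k (b / 2) * (2 ^ (k + 1) * (b / 2) ^ (k + 1)) =
        Real.exp (-(X * (b / 2))) * 2 ^ (k + 1) * (moment C k (b / 2) * (b / 2) ^ (k + 1)) by ring]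
    refine (mul_le_mul_of_nonneg_left (show moment C k (b / 2) * (b / 2) ^ (k + 1) ≤
      share C * ((k : ℝ) + 3) by linarith) (by positivity)).trans ?_
    rw [mul_left_comm]
    refine mul_le_mul_of_nonneg_left ?_ hσ.le
    have h2e : (2 : ℝ) ^ (k + 1) ≤ Real.exp 1 ^ (k + 1) :=
      pow_le_pow_left₀ zero_le_two (by linarith [Real.add_one_le_exp (1 : ℝ)]) _
    have h3e : (k : ℝ) + 3 ≤ Real.exp (k + 2) := by linarith [Real.add_one_le_exp ((k : ℝ) + 2)]
    refine (mul_le_mul (mul_le_mul_of_nonneg_left h2e (Real.exp_pos _).le) h3e (by positivity)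
      (by positivity)).trans ?_
    rw [← Real.exp_nat_mul, ← Real.exp_add, ← Real.exp_add, hXb, Real.exp_le_exp]
    push_cast
    linarith
  have := mul_le_mul_of_nonneg_right hle (pow_nonneg hb.le (k + 1))
  linarith

include hC hE hEL in
/-- Enough room at the zeros contradicts it. -/
theorem exists_prime_of_gap (hne : C.Nonempty) {P b x η : ℝ} {k : ℕ} (h : Admissible L P b k)
    (hk2 : 2 ≤ k) (hx : 0 ≤ x) (hθ : b / (b + x) ≤ Real.exp (-4))
    (hη : 4 * Real.exp (6 - 3 * k) < η)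
    (hzero : (η ≤ 1 ∧ ∀ ρ : ℂ, E ρ = 0 → ‖ρ - 3 / 2‖ ≤ 1 → x ≤ 1 - ρ.re) ∨
      ∃ β : ℝ, β ≤ 1 ∧ deriv E (β : ℂ) ≠ 0 ∧ (b / (b + (1 - β))) ^ (k + 1) ≤ 1 - η ∧
        ∀ ρ : ℂ, E ρ = 0 → ‖ρ - 3 / 2‖ ≤ 1 → ρ ≠ (β : ℂ) → x ≤ 1 - ρ.re) :
    ∃ v ∈ goodFrobSet C, (Ideal.absNorm v.asIdeal : ℝ) ≤ Real.exp (10 * (P * height L 0)) := by
  by_contra hno
  push Not at hno
  have hb := h.b_pos
  have hb4 : b ≤ 1 / 4 := by
    have : Real.exp (-6) ≤ 1 := Real.exp_le_one_iff.2 (by norm_num)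
    linarith [h.small]
  have hup := moment_le_of_no_prime hC hE hEL hne h hk2 hno
  have hz : (b / (b + x)) ^ (k - 1) * (1 + 24 * nearQ * height L 0 * b) ≤ Real.exp (6 - 3 * k) :=
    zeros_le (div_nonneg hb.le (by linarith)) hθ h.one_le (by
      have := nearQ_pos
      have := zero_lt_one.trans_le (one_le_height L 0)
      positivity) h.density_le
  have hr := h.restTerm_le
  have hB : ∀ g ∈ C, ∑ ψ : FA.ChebError.CycDual g,
      ‖iteratedDeriv k (logDeriv (FA.EffCheb.cycL ⟨g, ψ⟩)) ((1 + b : ℝ) : ℂ)‖ * b ^ (k + 1) / k ! ≤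
        1 - η + 2 * Real.exp (6 - 3 * k) := fun g _ => by
    rcases hzero with ⟨hη1, hgap⟩ | ⟨β, hβ, hd, hexc, hgap⟩
    · have := (sum_pair_le hE hEL g h.one_le hb hb4 hx).1 hgap
      linarith
    · have := (sum_pair_le hE hEL g h.one_le hb hb4 hx).2 β hβ hd hgap
      linarith
  have hlow := (abs_le.1 (abs_moment_sub_le hC k hb hB)).1
  have := mul_pos (FA.EffCheb.share_pos hne) (sub_pos.2 hη)
  linarith

/-- **Lagarias, Montgomery and Odlyzko: a prime of the class up to `exp (A H)`.** -/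
theorem exists_prime_le_exp_height : ∃ A : ℝ, 0 < A ∧
    ∀ {K : Type u} {L : Type v} [Field K] [NumberField K] [Field L] [NumberField L] [Algebra K L]
      [IsGalois K L] (C : Set (L ≃ₐ[K] L)), (∀ g ∈ C, ∀ x, x * g * x⁻¹ ∈ C) → C.Nonempty →
      ∃ v ∈ goodFrobSet C, (Ideal.absNorm v.asIdeal : ℝ) ≤ Real.exp (A * height L 0) := by
  obtain ⟨A, hA, hrep⟩ := FA.DeuringHeilbronn.exists_repulsion.{v}
  obtain ⟨G, hG, hfar⟩ := FA.DeuringHeilbronn.exists_exp_neg_height_le.{v}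
  obtain ⟨k₀, hk₀⟩ : ∃ k₀ : ℕ, k₀ = ⌈16 * A * Real.exp 6⌉₊ + 4 := ⟨_, rfl⟩
  obtain ⟨c, hc⟩ : ∃ c, c = min (zfrC / (2 * k₀)) (1 / (4 * A)) := ⟨_, rfl⟩
  have hk₀r : (4 : ℝ) ≤ k₀ := by rw [hk₀]; push_cast; linarith [(Nat.cast_nonneg ⌈16 * A * Real.exp 6⌉₊ : (0 : ℝ) ≤ _)]
  have hk₀A : 16 * A * Real.exp 6 ≤ k₀ := by
    rw [hk₀]; push_cast; linarith [Nat.le_ceil (16 * A * Real.exp 6)]
  have hc0 : 0 < c := hc ▸ lt_min (div_pos zfrC_pos (by linarith)) (by positivity)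
  obtain ⟨κ, hκ⟩ : ∃ κ : ℝ, κ = k₀ + G + 1 := ⟨_, rfl⟩
  have hQ := nearQ_pos
  have hCp := powC_nonneg
  obtain ⟨P, hP⟩ : ∃ P : ℝ, P = max (4 * κ * Real.exp 6) (Real.exp 4 / c) +
      24 * nearQ + 16 * (powC + 1) + 96 * nearQ := ⟨_, rfl⟩
  have hP1 : 4 * κ * Real.exp 6 ≤ P := by
    linarith [le_max_left (4 * κ * Real.exp 6) (Real.exp 4 / c)]
  have hP2 : Real.exp 4 / c ≤ P := by
    linarith [le_max_right (4 * κ * Real.exp 6) (Real.exp 4 / c)]
  have hκ1 : 1 ≤ κ := by linarith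
  have hPbig : 1 ≤ P := by
    have : 1 ≤ Real.exp 6 := Real.one_le_exp (by norm_num)
    nlinarith
  refine ⟨10 * P, by linarith, fun {K L} _ _ _ _ _ _ C hC hne => ?_⟩
  obtain ⟨E, hE, hEL, -⟩ := FA.ZetaDivisibility.exists_zeta_cleared L
  obtain ⟨H, hH⟩ : ∃ H, H = height L 0 := ⟨_, rfl⟩
  have hH1 : 1 ≤ H := hH ▸ one_le_height L 0
  rw [← hH, mul_assoc]
  -- the zeros in the disc about `3 / 2`
  have hdisc : ∀ ρ : ℂ, ‖ρ - 3 / 2‖ ≤ 1 → 0 ≤ ρ.re ∧ height L ρ.im ≤ 2 * H := fun ρ hρ => by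
    have h1 := abs_le.1 ((Complex.abs_re_le_norm _).trans hρ)
    have h2 := (Complex.abs_im_le_norm _).trans hρ
    rw [Complex.sub_re, show ((3 : ℂ) / 2).re = 3 / 2 by norm_num] at h1
    rw [Complex.sub_im, show ((3 : ℂ) / 2).im = 0 by norm_num, sub_zero] at h2
    exact ⟨by linarith, hH ▸ FA.DedekindZF.height_le_two_mul L (Or.inl (by rw [abs_zero]; linarith))⟩
  have hout : ∀ ρ : ℂ, ‖ρ - 3 / 2‖ ≤ 1 → ¬ (zfrC / (2 * H) ≤ 1 - ρ.re) →
      1 - zfrC / height L ρ.im ≤ ρ.re := fun ρ hρ hlt => by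
    have := div_le_div_of_nonneg_left zfrC_pos.le (zero_lt_one.trans_le (one_le_height L ρ.im))
      (hdisc ρ hρ).2
    linarith [not_le.1 hlt]
  -- a choice of `k` and what it gives
  have main : ∀ (k : ℕ) (x η : ℝ), k₀ ≤ k → (k : ℝ) ≤ κ * H → c * k ≤ x * H → Real.exp (-k) / (4 * A) ≤ η →
      ((η ≤ 1 ∧ ∀ ρ : ℂ, E ρ = 0 → ‖ρ - 3 / 2‖ ≤ 1 → x ≤ 1 - ρ.re) ∨
        ∃ β : ℝ, β ≤ 1 ∧ deriv E (β : ℂ) ≠ 0 ∧
          (k / (P * H) / (k / (P * H) + (1 - β))) ^ (k + 1) ≤ 1 - η ∧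
          ∀ ρ : ℂ, E ρ = 0 → ‖ρ - 3 / 2‖ ≤ 1 → ρ ≠ (β : ℂ) → x ≤ 1 - ρ.re) →
      ∃ v ∈ goodFrobSet C, (Ideal.absNorm v.asIdeal : ℝ) ≤ Real.exp (10 * (P * H)) := by
    intro k x η hk hkκ hx hη hzero
    have hkr : (4 : ℝ) ≤ k := hk₀r.trans (Nat.cast_le.2 hk)
    have hk2 : 2 ≤ k := by
      have : 4 ≤ k₀ := by omega
      omega
    obtain ⟨b, hb⟩ : ∃ b : ℝ, b = k / (P * H) := ⟨_, rfl⟩
    have hb0 : 0 < b := hb ▸ div_pos (by linarith) (by positivity)
    have hbk : b * (P * H) = k := by rw [hb]; field_simp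
    have hadm : Admissible L P b k :=
      ⟨by omega, hH ▸ hbk, hb0, by
        rw [hb, Real.exp_neg, ← mul_div_assoc, div_le_iff₀ (by positivity), inv_mul_eq_div,
          le_div_iff₀ (Real.exp_pos _)]
        have := mul_le_mul_of_nonneg_right hP1 (show 0 ≤ H by linarith)
        have := mul_le_mul_of_nonneg_right hkκ (show 0 ≤ 4 * Real.exp 6 by positivity)
        linarith,
      by linarith [le_max_of_le_left (c := Real.exp 4 / c) (show 0 ≤ 4 * κ * Real.exp 6 by positivity)],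
      by
        have : P ≤ P ^ 2 := by nlinarith
        linarith [le_max_of_le_left (c := Real.exp 4 / c) (show 0 ≤ 4 * κ * Real.exp 6 by positivity)],
      by
        have : P ≤ P ^ 2 := by nlinarith
        linarith [le_max_of_le_left (c := Real.exp 4 / c) (show 0 ≤ 4 * κ * Real.exp 6 by positivity)]⟩
    have hxnn : 0 ≤ x := nonneg_of_mul_nonneg_left (le_trans (by positivity) hx) (by linarith)
    have hθ : b / (b + x) ≤ Real.exp (-4) := by
      rw [div_le_iff₀ (by linarith), Real.exp_neg, inv_mul_eq_div, le_div_iff₀ (Real.exp_pos _)]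
      refine le_trans ?_ (show x ≤ b + x by linarith)
      refine le_of_mul_le_mul_right ?_ (show 0 < P * H by positivity)
      rw [mul_right_comm, hbk]
      have h1 := mul_le_mul_of_nonneg_left hx (show 0 ≤ P by linarith)
      rw [div_le_iff₀ hc0] at hP2
      have h2 := mul_le_mul_of_nonneg_left hP2 (Nat.cast_nonneg k : (0 : ℝ) ≤ _)
      linarith
    have hη' : 4 * Real.exp (6 - 3 * k) < η := by
      refine lt_of_lt_of_le ?_ hη
      rw [show (6 : ℝ) - 3 * k = 6 + (-(k : ℝ) + -(2 * k)) by ring, Real.exp_add, Real.exp_add,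
        Real.exp_neg (2 * (k : ℝ)), lt_div_iff₀ (by positivity)]
      rw [show 4 * (Real.exp 6 * (Real.exp (-k) * (Real.exp (2 * k))⁻¹)) * (4 * A) =
        Real.exp (-k) * (16 * A * Real.exp 6 / Real.exp (2 * k)) by ring]
      refine mul_lt_of_lt_one_right (Real.exp_pos _) ?_
      rw [div_lt_one (Real.exp_pos _)]
      have : (k₀ : ℝ) ≤ k := Nat.cast_le.2 hk
      linarith [Real.add_one_le_exp (2 * (k : ℝ))]
    have hgap := exists_prime_of_gap hC hE hEL hne hadm hk2 hxnn hθ hη' (by rwa [hb])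
    rwa [← hH] at hgap
  by_cases hno : ∀ β : ℝ, 1 - zfrC / height L 0 ≤ β → E (β : ℂ) ≠ 0
  · refine main k₀ (zfrC / (2 * H)) (Real.exp (-(k₀ : ℝ)) / (4 * A)) le_rfl ?_ ?_ le_rfl
      (Or.inl ⟨?_, fun ρ hρ hd => ?_⟩)
    · refine le_trans ?_ (le_mul_of_one_le_right (by linarith) hH1)
      linarith
    · have := mul_le_mul_of_nonneg_right (hc ▸ min_le_left _ _) (Nat.cast_nonneg k₀ : (0 : ℝ) ≤ _)
      refine this.trans (le_of_eq ?_)
      field_simp
    · rw [div_le_one (by positivity)]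
      linarith [Real.exp_le_one_iff.2 (show -(k₀ : ℝ) ≤ 0 by linarith)]
    · by_contra hlt
      have hz := hout ρ hd hlt
      obtain ⟨him, -, -⟩ := FA.DedekindZF.zero_free hE hEL hρ hz
      refine hno ρ.re (by rwa [him] at hz) ?_
      rwa [show ((ρ.re : ℝ) : ℂ) = ρ from Complex.ext rfl (by simpa using him.symm)]
  push Not at hno
  obtain ⟨β, hβ, h0⟩ := hno
  obtain ⟨-, hder, huniq⟩ := FA.DedekindZF.zero_free hE hEL h0 (by simpa using hβ)
  have hδH := hfar L E hE hEL β h0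
  have hδ : 0 < 1 - β := (Real.exp_pos _).trans_le hδH
  have hβ0 : 0 < β := by
    have := div_le_self zfrC_pos.le (one_le_height L 0)
    linarith [FA.DedekindPIT.zfrC_le]
  obtain ⟨y, hy⟩ : ∃ y, y = 2 * A * H * (1 - β) := ⟨_, rfl⟩
  have hy0 : 0 < y := hy ▸ by positivity
  obtain ⟨l, hl⟩ : ∃ l, l = -Real.log y := ⟨_, rfl⟩
  have hlG : l ≤ G * H := by
    have h1 : Real.exp (-(G * H)) ≤ y := by
      rw [hy]
      refine le_trans (hH ▸ hδH) (le_mul_of_one_le_left hδ.le ?_)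
      nlinarith
    have := Real.log_le_log (Real.exp_pos _) h1
    rw [Real.log_exp] at this
    linarith
  refine main (max k₀ ⌈l⌉₊) (max (zfrC / (2 * H)) (l / (2 * A * H)))
    (Real.exp (-((max k₀ ⌈l⌉₊ : ℕ) : ℝ)) / (4 * A)) (le_max_left _ _) ?_ ?_ le_rfl ?_
  · have hG0 : 0 ≤ G * H := by positivity
    refine le_trans ?_ (show (k₀ : ℝ) + G * H + 1 ≤ κ * H by rw [hκ]; nlinarith)
    rw [Nat.cast_max]
    refine max_le (by linarith) ?_
    rcases le_or_gt l 0 with hl0 | hl0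
    · rw [Nat.ceil_eq_zero.2 hl0, Nat.cast_zero]; positivity
    · linarith [Nat.ceil_lt_add_one hl0.le]
  · rcases le_or_gt ⌈l⌉₊ k₀ with hle | hlt
    · rw [max_eq_left hle]
      refine le_trans ?_ (mul_le_mul_of_nonneg_right (le_max_left _ _) (by linarith))
      have := mul_le_mul_of_nonneg_right (hc ▸ min_le_left _ _) (Nat.cast_nonneg k₀ : (0 : ℝ) ≤ _)
      refine this.trans (le_of_eq ?_)
      field_simp
    · rw [max_eq_right hlt.le]
      refine le_trans ?_ (mul_le_mul_of_nonneg_right (le_max_right _ _) (by linarith))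
      have hl0 : 0 < l := by
        by_contra h
        rw [Nat.ceil_eq_zero.2 (not_lt.1 h)] at hlt
        omega
      have h2 : (⌈l⌉₊ : ℝ) ≤ 2 * l := by
        have h4 : (4 : ℝ) ≤ ⌈l⌉₊ := hk₀r.trans (Nat.cast_le.2 hlt.le)
        linarith [Nat.ceil_lt_add_one hl0.le]
      refine (mul_le_mul (hc ▸ min_le_right _ _) h2 (Nat.cast_nonneg _) (by positivity)).trans
        (le_of_eq ?_)
      field_simp
      ring
  · obtain ⟨k, hk⟩ : ∃ k, k = max k₀ ⌈l⌉₊ := ⟨_, rfl⟩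
    rw [← hk]
    refine Or.inr ⟨β, by linarith, hder, ?_, fun ρ hρ hd hρβ => max_le ?_ ?_⟩
    · have hkl : l ≤ k := (Nat.le_ceil l).trans (Nat.cast_le.2 (hk ▸ le_max_right _ _))
      have hek : Real.exp (-(k : ℝ)) ≤ y := by
        rw [← Real.exp_log hy0, Real.exp_le_exp]
        linarith
      have hk1 : 0 < k := by
        have : 4 ≤ k₀ := by omega
        have : k₀ ≤ k := hk ▸ le_max_left _ _
        omega
      rw [show Real.exp (-(k : ℝ)) / (4 * A) = Real.exp (-(k : ℝ)) / (2 * A) / 2 by ring]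
      refine eta_le (div_pos (Nat.cast_pos.2 hk1) (by positivity)) hδ.le (by positivity) ?_ ?_
      · rw [div_le_one (by positivity)]
        linarith [Real.exp_le_one_iff.2 (show -(k : ℝ) ≤ 0 by linarith [(Nat.cast_nonneg k : (0 : ℝ) ≤ k)])]
      · have h1 : Real.exp (-(k : ℝ)) / (2 * A) ≤ H * (1 - β) := by
          rw [div_le_iff₀ (by positivity)]
          linarith
        refine (mul_le_mul_of_nonneg_right h1 (by positivity)).trans ?_
        rw [show H * (1 - β) * ((k : ℝ) / (P * H)) = k * (1 - β) / P by field_simp]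
        refine (div_le_self (by positivity) hPbig).trans ?_
        linarith
    · by_contra hlt
      exact hρβ (huniq ρ hρ (hout ρ hd hlt))
    · obtain ⟨hσ, hHρ⟩ := hdisc ρ hd
      have h1 := hrep L E hE hEL β hβ0 h0 ρ hρ hρβ hσ
      have hσ1 : 0 ≤ 1 - ρ.re :=
        sub_nonneg.2 (not_le.1 fun h => FA.DedekindZF.cleared_ne_zero hE hEL h hρ).le
      have h2 := mul_le_mul_of_nonneg_left hHρ (show 0 ≤ A by linarith)
      have h3 : Real.exp (-(2 * A * H * (1 - ρ.re))) ≤ y := by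
        refine le_trans (Real.exp_le_exp.2 ?_) (h1.trans ?_)
        · have := mul_le_mul_of_nonneg_right h2 hσ1
          linarith
        · have := mul_le_mul_of_nonneg_right h2 hδ.le
          rw [hy]
          linarith
      have h4 := Real.log_le_log (Real.exp_pos _) h3
      rw [Real.log_exp] at h4
      rw [div_le_iff₀ (by positivity)]
      linarith

end FA.LMO

end
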