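import Fermat.Agent.LeastPrimeIdeal.Series
import Fermat.Agent.EffectiveChebotarev.LeastPrime

/-!
# What is left of the smoothed sum without small unramified primes in the class

Proper prime powers weigh `O (4 ^ k n_K)` and the primes containing `d_L` at most
`4 ^ k n_K log |d_L|`.
-/

set_option autoImplicit false
set_option linter.style.haveILetI false
set_option linter.unusedSectionVars false

noncomputable section

open NumberField IsDedekindDomain Module Finset
open FA.DedekindZF (height one_le_height)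
open FA.ChebError (share mangoldtF setLog frobShare)
open FA.EffCheb (discSet goodFrobSet)
open FA.NaturalChebotarev (someFrobSet)
open FA.DedekindPIT (partialSum)
open scoped Real Nat Classical ArithmeticFunction.vonMangoldt

namespace FA.LMO

/-- The bound on `∑ Λ(n) n ^ (- 3 / 4)` over proper prime powers. -/
def powC : ℝ := 24 * ∑' p : ℕ, (p : ℝ) ^ (-(11 / 8) : ℝ)

theorem powC_nonneg : 0 ≤ powC :=
  mul_nonneg (by norm_num) (tsum_nonneg fun _ => Real.rpow_nonneg (Nat.cast_nonneg _) _)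

theorem sum_prime_pow_le (p : ℕ) (hp : p.Prime) (N : ℕ) :
    ∑ m ∈ Icc 2 N, Real.log p * (((p ^ m : ℕ) : ℝ) ^ (-(3 / 4) : ℝ)) ≤
      24 * (p : ℝ) ^ (-(11 / 8) : ℝ) := by
  have hp2 : (2 : ℝ) ≤ p := by exact_mod_cast hp.two_le
  have hp0 : (0 : ℝ) < p := by linarith
  obtain ⟨q, hq⟩ : ∃ q : ℝ, q = (p : ℝ) ^ (-(3 / 4) : ℝ) := ⟨_, rfl⟩
  have hq0 : 0 < q := hq ▸ Real.rpow_pos_of_pos hp0 _
  have hq1 : q ≤ 2 / 3 := by
    rw [hq]
    refine (Real.rpow_le_rpow_of_nonpos two_pos hp2 (by norm_num)).trans ?_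
    rw [Real.rpow_def_of_pos two_pos, show Real.log 2 * -(3 / 4) = -(3 / 4 * Real.log 2) by ring,
      Real.exp_neg, show (2 / 3 : ℝ) = (3 / 2)⁻¹ by norm_num]
    refine inv_anti₀ (by norm_num) (le_trans ?_ (Real.add_one_le_exp _))
    linarith [Real.log_two_gt_d9]
  have hgeo : ∀ n : ℕ, ∑ m ∈ Icc 2 n, q ^ m ≤ 3 * q ^ 2 * (1 - (2 / 3) ^ (n - 1)) := fun n => by
    induction n with
    | zero => simp
    | succ i ih =>
      rcases Nat.eq_zero_or_pos i with rfl | hi
      · simp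
      rw [sum_Icc_succ_top (by omega), Nat.add_sub_cancel]
      obtain ⟨l, rfl⟩ : ∃ l, i = l + 1 := ⟨i - 1, by omega⟩
      rw [Nat.add_sub_cancel] at ih
      have h1 := mul_le_mul_of_nonneg_left (pow_le_pow_left₀ hq0.le hq1 l) (sq_nonneg q)
      rw [pow_succ (2 / 3 : ℝ) l, show l + 1 + 1 = 2 + l by ring, pow_add]
      linarith
  have hlog : Real.log p ≤ 8 * (p : ℝ) ^ (1 / 8 : ℝ) := by
    have := Real.log_le_rpow_div hp0.le (show (0 : ℝ) < 1 / 8 by norm_num)
    linarith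
  have hl0 : 0 ≤ Real.log p := Real.log_natCast_nonneg p
  rw [← Finset.mul_sum, Finset.sum_congr rfl fun m _ => show ((p ^ m : ℕ) : ℝ) ^ (-(3 / 4) : ℝ) = q ^ m by
    rw [hq, Nat.cast_pow, ← Real.rpow_natCast_mul hp0.le, ← Real.rpow_mul_natCast hp0.le, mul_comm]]
  have h2 : 0 ≤ 3 * q ^ 2 * (2 / 3 : ℝ) ^ (N - 1) := by positivity
  calc Real.log p * ∑ m ∈ Icc 2 N, q ^ m ≤ 8 * (p : ℝ) ^ (1 / 8 : ℝ) * (3 * q ^ 2) :=
        mul_le_mul hlog ((hgeo N).trans (by linarith))
          (sum_nonneg fun _ _ => by positivity) (by positivity)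
    _ = 24 * ((p : ℝ) ^ (1 / 8 : ℝ) * q ^ 2) := by ring
    _ = _ := by
        rw [hq, ← Real.rpow_mul_natCast hp0.le, ← Real.rpow_add hp0]
        norm_num

/-- **The proper prime powers.** -/
theorem sum_nonprime_le (N : ℕ) :
    ∑ n ∈ range (N + 1), (if n.Prime then 0 else Λ n * (n : ℝ) ^ (-(3 / 4) : ℝ)) ≤ powC := by
  obtain ⟨T, hT⟩ : ∃ T, T = ((range (N + 1)).filter Nat.Prime ×ˢ Icc 2 N) := ⟨_, rfl⟩
  obtain ⟨G, hG⟩ : ∃ G : ℕ → ℝ, G = fun n => if n.Prime then 0 else Λ n * (n : ℝ) ^ (-(3 / 4) : ℝ) :=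
    ⟨_, rfl⟩
  have hG0 : ∀ n, 0 ≤ G n := fun n => by
    simp only [hG]
    split_ifs
    · exact le_rfl
    · exact mul_nonneg ArithmeticFunction.vonMangoldt_nonneg (Real.rpow_nonneg (Nat.cast_nonneg n) _)
  have e : ∑ n ∈ range (N + 1), G n = ∑ n ∈ (range (N + 1)).filter (fun n => G n ≠ 0), G n :=
    (Finset.sum_filter_ne_zero _).symm
  have hsub : (range (N + 1)).filter (fun n => G n ≠ 0) ⊆ T.image fun x => x.1 ^ x.2 := fun n hn => by
    obtain ⟨hnN, hn0⟩ := Finset.mem_filter.1 hn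
    simp only [hG] at hn0
    split_ifs at hn0 with hpr
    · exact absurd rfl hn0
    obtain ⟨p, m, hp, hm, rfl⟩ := (isPrimePow_nat_iff n).1
      (ArithmeticFunction.vonMangoldt_ne_zero_iff.1 (left_ne_zero_of_mul hn0))
    have hm2 : 2 ≤ m := by
      by_contra h
      rw [show m = 1 by omega, pow_one] at hpr
      exact hpr hp
    have h1 := Finset.mem_range.1 hnN
    have h2 : p ≤ p ^ m := Nat.le_self_pow (by omega) p
    have h3 : m < p ^ m := Nat.lt_pow_self hp.one_lt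
    refine Finset.mem_image.2 ⟨(p, m), ?_, rfl⟩
    rw [hT, Finset.mem_product, Finset.mem_filter, Finset.mem_range, mem_Icc]
    exact ⟨⟨by omega, hp⟩, hm2, by omega⟩
  have key : ∑ n ∈ range (N + 1), G n ≤ powC := by
    rw [e]
    refine (sum_le_sum_of_subset_of_nonneg hsub fun n _ _ => hG0 n).trans ?_
    refine (Finset.sum_image_le_of_nonneg fun n _ => hG0 n).trans ?_
    rw [hT, Finset.sum_product]
    refine (sum_le_sum (g := fun p : ℕ => 24 * (p : ℝ) ^ (-(11 / 8) : ℝ)) fun p hp => ?_).trans ?_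
    · obtain ⟨-, hpp⟩ := Finset.mem_filter.1 hp
      refine le_trans (le_of_eq (sum_congr rfl fun m hm => ?_)) (sum_prime_pow_le p hpp N)
      have hm2 := (mem_Icc.1 hm).1
      simp only [hG]
      rw [if_neg (fun h => by
        have := h.eq_one_of_pow
        omega), ArithmeticFunction.vonMangoldt_apply_pow (by omega),
        ArithmeticFunction.vonMangoldt_apply_prime hpp]
    · rw [← Finset.mul_sum, powC]
      exact mul_le_mul_of_nonneg_left ((Real.summable_nat_rpow.2 (by norm_num)).sum_le_tsum _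
        fun p _ => Real.rpow_nonneg (Nat.cast_nonneg p) _) (by norm_num)
  simpa only [hG] using key

variable {K L : Type*} [Field K] [NumberField K] [Field L] [NumberField L] [Algebra K L]
variable [IsGalois K L]

/-- At a prime only the primes of that norm count. -/
theorem mangoldtF_prime_le {C : Set (L ≃ₐ[K] L)} (hC : ∀ g ∈ C, ∀ x, x * g * x⁻¹ ∈ C) {p : ℕ}
    (hp : p.Prime) (hno : ∀ v ∈ goodFrobSet C, Ideal.absNorm v.asIdeal ≠ p) :
    mangoldtF C p ≤ setLog (discSet K L) p := by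
  obtain ⟨w, hw⟩ : ∃ w : HeightOneSpectrum (𝓞 K) × ℕ → ℝ, w = fun q => frobShare C q.1 (q.2 + 1) :=
    ⟨_, rfl⟩
  have hw0 : ∀ q, 0 ≤ w q := fun q => hw ▸ FA.ChebError.frobShare_nonneg C _ _
  have hw1 : ∀ q, w q ≤ 1 := fun q => hw ▸ FA.ChebError.frobShare_le_one C _ _
  obtain ⟨F, hF⟩ : ∃ F, F = (FA.Hecke.primesLE K p).filter fun v => Ideal.absNorm v.asIdeal = p :=
    ⟨_, rfl⟩
  have hmemF : ∀ v ∈ F, Ideal.absNorm v.asIdeal = p := fun v hv => by
    rw [hF] at hv
    exact (Finset.mem_filter.1 hv).2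
  have h1 : ∑ v ∈ F, (1 - w (v, 0)) * Real.log (Ideal.absNorm v.asIdeal) ≤
      FA.Hecke.fiberSum (fun q => 1 - w q) p :=
    FA.Hecke.sum_le_fiberSum (w := fun q => 1 - w q) (fun q => sub_nonneg.2 (hw1 q))
      (fun q => sub_le_self 1 (hw0 q)) F hmemF
  have h3 : mangoldtF C p + FA.Hecke.fiberSum (fun q => 1 - w q) p = FA.DedekindPIT.mangoldtK K p := by
    rw [mangoldtF, ← hw, FA.DedekindPIT.mangoldtK, FA.Hecke.fiberSum, FA.Hecke.fiberSum,
      FA.Hecke.fiberSum, ← (FA.Hecke.summable_fiberSum hw0 hw1 p).tsum_add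
        (FA.Hecke.summable_fiberSum (fun q => sub_nonneg.2 (hw1 q)) (fun q => sub_le_self 1 (hw0 q)) p)]
    refine tsum_congr fun q => ?_
    show w q.1 * _ + (1 - w q.1) * _ = 1 * _
    ring
  rw [FA.DedekindPIT.mangoldtK_eq_of_prime K hp, FA.DedekindPIT.primeLog, ← hF] at h3
  have h2 : mangoldtF C p ≤ ∑ v ∈ F, w (v, 0) * Real.log (Ideal.absNorm v.asIdeal) := by
    simp only [sub_mul, one_mul, sum_sub_distrib] at h1
    linarith
  refine h2.trans ?_
  rw [setLog, ← hF]
  refine sum_le_sum fun v hv => ?_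
  have hl := Real.log_natCast_nonneg (Ideal.absNorm v.asIdeal)
  by_cases hd : v ∈ discSet K L
  · rw [if_pos hd]
    exact mul_le_of_le_one_left hl (hw1 _)
  rw [if_neg hd, hw]
  show frobShare C v 1 * _ ≤ _
  have hs : v ∉ someFrobSet K L C := fun h =>
    hno v ⟨h, hd⟩ (hmemF v hv)
  rw [FA.ChebError.frobShare_eq_ind fun h => hs h.1, if_neg hs, zero_mul]

/-- **Without unramified primes of the class up to `x` the smoothed sum to `x` is small.** -/
theorem sum_wgt_le_of_no_prime {C : Set (L ≃ₐ[K] L)} (hC : ∀ g ∈ C, ∀ x, x * g * x⁻¹ ∈ C)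
    (hne : C.Nonempty) (k : ℕ) {b : ℝ} (hb : 0 ≤ b) {x : ℝ} (hx : 1 ≤ x)
    (hno : ∀ v ∈ goodFrobSet C, x < Ideal.absNorm v.asIdeal) :
    ∑ n ∈ range (⌊x⌋₊ + 1), wgt k b n * mangoldtF C n ≤
      share C * (4 ^ k * ((powC + 1) * height L 0 ^ 2)) := by
  have hstep : ∀ n ∈ range (⌊x⌋₊ + 1), wgt k b n * mangoldtF C n ≤
      4 ^ k * (finrank ℚ K * (if n.Prime then 0 else Λ n * (n : ℝ) ^ (-(3 / 4) : ℝ)) +
        setLog (discSet K L) n) := fun n hn => by
    have hS : 0 ≤ setLog (discSet K L) n := sum_nonneg fun v _ => by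
      split_ifs <;> [exact Real.log_natCast_nonneg _; exact le_rfl]
    have hF0 := FA.ChebError.mangoldtF_nonneg C n
    refine (mul_le_mul_of_nonneg_right (wgt_le k hb n) hF0).trans ?_
    rw [mul_assoc]
    refine mul_le_mul_of_nonneg_left ?_ (by positivity)
    by_cases hpr : n.Prime
    · rw [if_pos hpr, mul_zero, zero_add]
      refine (mul_le_of_le_one_left hF0 ?_).trans (mangoldtF_prime_le hC hpr fun v hv he => ?_)
      · exact Real.rpow_le_one_of_one_le_of_nonpos (Nat.one_le_cast.2 hpr.one_lt.le) (by norm_num)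
      · have hlt := hno v hv
        rw [he] at hlt
        exact hlt.not_ge ((Nat.cast_le.2 (Nat.lt_succ_iff.1 (Finset.mem_range.1 hn))).trans
          (Nat.floor_le (by linarith)))
    · rw [if_neg hpr]
      have := mul_le_mul_of_nonneg_left (FA.ChebError.mangoldtF_le C n)
        (Real.rpow_nonneg (Nat.cast_nonneg n) (-(3 / 4) : ℝ))
      linarith
  refine (sum_le_sum hstep).trans ?_
  rw [← Finset.mul_sum, ← mul_assoc (share C), mul_comm (share C), mul_assoc]
  refine mul_le_mul_of_nonneg_left ?_ (by positivity)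
  rw [sum_add_distrib, ← Finset.mul_sum]
  have h0 : ∑ n ∈ range (⌊x⌋₊ + 1), setLog (discSet K L) n = partialSum (setLog (discSet K L)) x := by
    rw [partialSum]
    refine (sum_subset (fun n hn => Finset.mem_range.2 (Nat.lt_succ_iff.2 (mem_Icc.1 hn).2))
      fun n hn hn' => ?_).symm
    rw [Finset.mem_range] at hn
    rw [mem_Icc] at hn'
    rw [show n = 0 by omega, setLog]
    refine sum_eq_zero fun v hv => absurd (Finset.mem_filter.1 hv).2 ?_
    have := FA.Ext.two_le_absNorm v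
    omega
  rw [h0]
  obtain ⟨H, hH⟩ : ∃ H, H = height L 0 := ⟨_, rfl⟩
  have hH1 : 1 ≤ H := hH ▸ one_le_height L 0
  rw [← hH]
  have hnK : (finrank ℚ K : ℝ) ≤ share C * H :=
    hH ▸ (FA.EffCheb.finrank_base_le hne).trans (mul_le_mul_of_nonneg_left
      (FA.DedekindZF.finrank_le_height L 0) (FA.EffCheb.share_pos hne).le)
  have hlog : Real.log ((discr L).natAbs : ℝ) ≤ H := by
    have h3 : 0 ≤ (finrank ℚ L : ℝ) * Real.log (|(0 : ℝ)| + 3) :=
      mul_nonneg (Nat.cast_nonneg _) (zero_le_one.trans (FA.DedekindZF.one_le_log 0))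
    rw [hH, FA.DedekindZF.height]
    linarith
  have a1 := mul_le_mul hnK (sum_nonprime_le ⌊x⌋₊)
    (sum_nonneg fun n _ => by
      split_ifs
      · exact le_rfl
      · exact mul_nonneg ArithmeticFunction.vonMangoldt_nonneg (Real.rpow_nonneg (Nat.cast_nonneg n) _))
    (mul_nonneg (FA.EffCheb.share_pos hne).le (by linarith))
  have a2 := (FA.EffCheb.partialSum_setLog_disc_le (K := K) (L := L) x).trans
    (mul_le_mul hnK hlog (Real.log_natCast_nonneg _)
      (mul_nonneg (FA.EffCheb.share_pos hne).le (by linarith)))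
  have a3 := mul_nonneg (mul_nonneg (FA.EffCheb.share_pos hne).le powC_nonneg)
    (show 0 ≤ H * (H - 1) from mul_nonneg (by linarith) (by linarith))
  linarith

end FA.LMO

end
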