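import Fermat.Agent.LeastPrimeIdeal.Zeros
import Fermat.Agent.EffectiveChebotarev.Count
import Fermat.Agent.DeuringHeilbronn.Main

/-!
# The smoothed sum `∑ Λ_C(n) (log n) ^ k / k! n ^ (- 1 - b)`

It is `(-1) ^ k / k!` times the `k`-th derivative of the series of `Λ_C` at `1 + b`, so it is
`share C / b ^ (k + 1)` up to what the zeros near `1` contribute.
-/

set_option autoImplicit false
set_option linter.style.haveILetI false
set_option linter.unusedSectionVars false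

noncomputable section

open NumberField Module Complex Filter
open FA.DedekindZF (height one_le_height)
open FA.ChebError (CycDual share mangoldtF)
open FA.EffCheb (cycL cyc_comm liftChar liftChar_injective pairs pairW clearedL)
open scoped Real Topology Nat Classical

namespace FA.LMO

/-- `(log n) ^ k / k! n ^ (- 1 - b)`. -/
def wgt (k : ℕ) (b : ℝ) (n : ℕ) : ℝ := Real.log n ^ k / k ! * (n : ℝ) ^ (-(1 + b))

theorem wgt_nonneg (k : ℕ) (b : ℝ) (n : ℕ) : 0 ≤ wgt k b n :=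
  mul_nonneg (div_nonneg (pow_nonneg (Real.log_natCast_nonneg n) k) (Nat.cast_nonneg _))
    (Real.rpow_nonneg (Nat.cast_nonneg n) _)

/-- `(log n) ^ k / k! ≤ 4 ^ k n ^ (1 / 4)`. -/
theorem wgt_le (k : ℕ) {b : ℝ} (hb : 0 ≤ b) (n : ℕ) :
    wgt k b n ≤ 4 ^ k * (n : ℝ) ^ (-(3 / 4) : ℝ) := by
  rcases eq_or_ne n 0 with rfl | hn
  · rw [wgt, Nat.cast_zero, Real.zero_rpow (by linarith : -(1 + b) ≠ 0),
      Real.zero_rpow (by norm_num : (-(3 / 4) : ℝ) ≠ 0), mul_zero, mul_zero]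
  have hn1 : (1 : ℝ) ≤ n := Nat.one_le_cast.2 (Nat.one_le_iff_ne_zero.2 hn)
  obtain ⟨l, hl⟩ : ∃ l, l = Real.log n := ⟨_, rfl⟩
  have hl0 : 0 ≤ l := hl ▸ Real.log_natCast_nonneg n
  have h1 := Real.pow_div_factorial_le_exp (x := l / 4) (by positivity) k
  have h2 : l ^ k / k ! ≤ 4 ^ k * Real.exp (l / 4) := by
    rw [div_le_iff₀ (by positivity)] at h1 ⊢
    rw [div_pow, div_le_iff₀ (by positivity)] at h1
    linarith
  rw [wgt, ← hl]
  refine (mul_le_mul_of_nonneg_right h2 (Real.rpow_nonneg (by linarith) _)).trans ?_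
  rw [mul_assoc, Real.rpow_def_of_pos (by linarith), Real.rpow_def_of_pos (by linarith), ← hl,
    ← Real.exp_add]
  refine mul_le_mul_of_nonneg_left (Real.exp_le_exp.2 ?_) (by positivity)
  nlinarith [mul_nonneg hl0 hb]

/-- Beyond `e ^ X` the weight at `b` is `e ^ (- X b / 2)` times that at `b / 2`. -/
theorem wgt_le_tail (k : ℕ) {b X : ℝ} (hb : 0 ≤ b) {n : ℕ} (hn : Real.exp X ≤ n) :
    wgt k b n ≤ Real.exp (-(X * (b / 2))) * wgt k (b / 2) n := by
  have hn0 : 0 < (n : ℝ) := (Real.exp_pos X).trans_le hn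
  have hlog : X ≤ Real.log n := (Real.le_log_iff_exp_le hn0).2 hn
  rw [wgt, wgt, ← mul_assoc, mul_comm (Real.exp _), mul_assoc]
  refine mul_le_mul_of_nonneg_left ?_
    (div_nonneg (pow_nonneg (Real.log_natCast_nonneg n) k) (Nat.cast_nonneg _))
  rw [Real.rpow_def_of_pos hn0, Real.rpow_def_of_pos hn0, ← Real.exp_add]
  refine Real.exp_le_exp.2 ?_
  have := mul_le_mul_of_nonneg_right hlog (show 0 ≤ b / 2 by linarith)
  linarith

theorem iterate_logMul_ofReal (f : ℕ → ℝ) (k n : ℕ) :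
    LSeries.logMul^[k] (fun m => (f m : ℂ)) n = ((Real.log n ^ k * f n : ℝ) : ℂ) := by
  induction k with
  | zero => simp
  | succ k ih =>
    rw [Function.iterate_succ_apply']
    show Complex.log n * _ = _
    rw [ih, ← Complex.natCast_log, ← ofReal_mul, pow_succ']
    ring_nf

variable {K L : Type*} [Field K] [NumberField K] [Field L] [NumberField L] [Algebra K L]
variable [IsGalois K L]

/-- The smoothed sum. -/
def moment (C : Set (L ≃ₐ[K] L)) (k : ℕ) (b : ℝ) : ℝ := ∑' n : ℕ, wgt k b n * mangoldtF C n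

variable {C : Set (L ≃ₐ[K] L)} (hC : ∀ g ∈ C, ∀ x, x * g * x⁻¹ ∈ C)

include hC in
theorem abscissa_mangoldtF_le :
    LSeries.abscissaOfAbsConv (fun n => (mangoldtF C n : ℂ)) ≤ (1 : ℝ) :=
  LSeries.abscissaOfAbsConv_le_of_forall_lt_LSeriesSummable fun y hy =>
    (FA.EffCheb.LSeries_mangoldtF hC zero_le_one (δ := fun _ => 0) (gd := cycL)
      (fun p => (FA.EffCheb.isCleared_clearedL _ _).diff) (fun p z => by simp)
      (s := (y : ℂ)) (by simpa using hy)).1

include hC in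
theorem hasSum_moment (k : ℕ) {b : ℝ} (hb : 0 < b) :
    HasSum (fun n => wgt k b n * mangoldtF C n) (moment C k b) ∧
      (k ! : ℂ) * (moment C k b : ℂ) =
        (-1) ^ k * iteratedDeriv k (LSeries fun n => (mangoldtF C n : ℂ)) ((1 + b : ℝ) : ℂ) := by
  have hs : LSeries.abscissaOfAbsConv (fun n => (mangoldtF C n : ℂ)) <
      (((1 + b : ℝ) : ℂ).re : EReal) :=
    lt_of_le_of_lt (abscissa_mangoldtF_le hC) (by rw [ofReal_re]; exact_mod_cast (by linarith : (1 : ℝ) < 1 + b))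
  have hsum : LSeriesSummable (LSeries.logMul^[k] fun n => (mangoldtF C n : ℂ)) ((1 + b : ℝ) : ℂ) :=
    LSeriesSummable_of_abscissaOfAbsConv_lt_re (by rwa [LSeries.absicssaOfAbsConv_logPowMul])
  have hterm : ∀ n, LSeries.term (LSeries.logMul^[k] fun n => (mangoldtF C n : ℂ)) ((1 + b : ℝ) : ℂ) n =
      ((k ! * (wgt k b n * mangoldtF C n) : ℝ) : ℂ) := fun n => by
    rcases eq_or_ne n 0 with rfl | hn
    · rw [LSeries.term_zero, wgt, Nat.cast_zero, Real.zero_rpow (by linarith : -(1 + b) ≠ 0)]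
      simp
    rw [LSeries.term_of_ne_zero hn, iterate_logMul_ofReal, ← ofReal_natCast n,
      ← ofReal_cpow (Nat.cast_nonneg n), ← ofReal_div, wgt, Real.rpow_neg (Nat.cast_nonneg n)]
    congr 1
    field_simp
  have hs' : Summable fun n => wgt k b n * mangoldtF C n := by
    refine (summable_mul_left_iff (Nat.cast_ne_zero.2 (Nat.factorial_ne_zero k) :
      ((k ! : ℕ) : ℝ) ≠ 0)).1 (Complex.summable_ofReal.1 ?_)
    exact hsum.congr hterm
  refine ⟨hs'.hasSum, ?_⟩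
  rw [LSeries_iteratedDeriv k hs, ← mul_assoc, ← mul_pow, neg_one_mul, neg_neg, one_pow, one_mul,
    LSeries, tsum_congr hterm, ← Complex.ofReal_tsum, tsum_mul_left, moment, ofReal_mul, ofReal_natCast]

include hC in
/-- The derivatives of the series as a combination over the pairs. -/
theorem iteratedDeriv_mangoldtF (k : ℕ) {s : ℂ} (hs : 1 < s.re) :
    iteratedDeriv k (LSeries fun n => (mangoldtF C n : ℂ)) s =
      -(∑ p ∈ pairs C, pairW p * iteratedDeriv k (logDeriv (cycL p)) s) +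
        (share C : ℂ) * ((-1) ^ k * k ! * ((s - 1) ^ (k + 1))⁻¹) := by
  have hev : (LSeries fun n => (mangoldtF C n : ℂ)) =ᶠ[𝓝 s] fun z =>
      -(∑ p ∈ pairs C, pairW p * logDeriv (cycL p) z) + (share C : ℂ) * (z - 1)⁻¹ := by
    filter_upwards [(isOpen_lt continuous_const Complex.continuous_re).mem_nhds hs] with z hz
    rw [(FA.EffCheb.LSeries_mangoldtF hC zero_le_one (δ := fun _ => 0) (gd := cycL)
      (fun p => (FA.EffCheb.isCleared_clearedL _ _).diff) (fun p z => by simp) hz).2]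
    simp only [logDeriv_apply, mul_neg, Finset.sum_neg_distrib, Nat.cast_zero, mul_zero,
      Finset.sum_const_zero, zero_mul, sub_zero]
  have hA : ∀ p, AnalyticAt ℂ (logDeriv (cycL (K := K) (L := L) p)) s := fun p => by
    have hd : Differentiable ℂ (cycL p) := (FA.EffCheb.isCleared_clearedL _ _).diff
    exact (hd.analyticAt s).deriv.div (hd.analyticAt s)
      ((FA.EffCheb.isCleared_clearedL _ _).ne_zero hs)
  have hs1 : s - 1 ≠ 0 := FA.PrimeIdeal.sub_one_ne_zero hs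
  have hB : AnalyticAt ℂ (fun z : ℂ => (z - 1)⁻¹) s := (analyticAt_id.sub analyticAt_const).inv hs1
  have hS : ContDiffAt ℂ k (fun z => ∑ p ∈ pairs C, pairW p * logDeriv (cycL p) z) s :=
    ContDiffAt.sum fun p _ => contDiffAt_const.mul (hA p).contDiffAt
  have hI : iteratedDeriv k (fun z : ℂ => (z - 1)⁻¹) s = (-1) ^ k * k ! * ((s - 1) ^ (k + 1))⁻¹ := by
    rw [iteratedDeriv_comp_sub_const k (fun z : ℂ => z⁻¹) 1, iteratedDeriv_eq_iterate]
    show deriv^[k] Inv.inv (s - 1) = _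
    rw [iter_deriv_inv, show (-1 - k : ℤ) = -((k + 1 : ℕ) : ℤ) by push_cast; ring, zpow_neg,
      zpow_natCast]
  rw [hev.iteratedDeriv_eq k]
  refine (iteratedDeriv_add (f := fun z => -(∑ p ∈ pairs C, pairW p * logDeriv (cycL p) z))
    (g := fun z : ℂ => (share C : ℂ) * (z - 1)⁻¹) hS.neg (contDiffAt_const.mul hB.contDiffAt)).trans ?_
  rw [iteratedDeriv_fun_neg, iteratedDeriv_const_mul _ hB.contDiffAt, hI,
    iteratedDeriv_fun_sum fun p _ => contDiffAt_const.mul (hA p).contDiffAt]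
  congr 2
  exact Finset.sum_congr rfl fun p _ => iteratedDeriv_const_mul _ (hA p).contDiffAt

include hC in
/-- **The smoothed sum against `share C / b ^ (k + 1)`.** -/
theorem abs_moment_sub_le (k : ℕ) {b B : ℝ} (hb : 0 < b)
    (hB : ∀ g ∈ C, ∑ ψ : CycDual g,
      ‖iteratedDeriv k (logDeriv (cycL ⟨g, ψ⟩)) ((1 + b : ℝ) : ℂ)‖ * b ^ (k + 1) / k ! ≤ B) :
    |moment C k b * b ^ (k + 1) - share C| ≤ share C * B := by
  obtain ⟨T, hT⟩ : ∃ T : ℂ, T = ∑ p ∈ pairs C,
      pairW p * iteratedDeriv k (logDeriv (cycL p)) ((1 + b : ℝ) : ℂ) := ⟨_, rfl⟩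
  have h := (hasSum_moment hC k hb).2
  rw [iteratedDeriv_mangoldtF hC k (by rw [ofReal_re]; linarith), ← hT,
    show ((1 + b : ℝ) : ℂ) - 1 = (b : ℂ) by push_cast; ring] at h
  have hf0 : (k ! : ℂ) ≠ 0 := Nat.cast_ne_zero.2 (Nat.factorial_ne_zero k)
  have hb0 : (b : ℂ) ^ (k + 1) ≠ 0 := pow_ne_zero _ (ofReal_ne_zero.2 hb.ne')
  have e : ((moment C k b * b ^ (k + 1) - share C : ℝ) : ℂ) =
      -((-1) ^ k * T * ((b ^ (k + 1) / k ! : ℝ) : ℂ)) := by
    refine mul_left_cancel₀ hf0 ?_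
    push_cast
    rw [mul_sub, ← mul_assoc (k ! : ℂ), h]
    have hm : ((-1 : ℂ) ^ k) * (-1) ^ k = 1 := by rw [← mul_pow, neg_one_mul, neg_neg, one_pow]
    field_simp
    linear_combination ((share C : ℂ) * (k ! : ℂ)) * hm
  rw [← Real.norm_eq_abs, ← Complex.norm_real, e, norm_neg, norm_mul, norm_mul, norm_pow, norm_neg,
    norm_one, one_pow, one_mul, norm_real, Real.norm_of_nonneg (by positivity), hT]
  refine (mul_le_mul_of_nonneg_right (norm_sum_le _ _) (by positivity)).trans ?_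
  rw [Finset.sum_mul, FA.EffCheb.share_eq, mul_assoc, ← nsmul_eq_mul, ← Finset.sum_const, pairs,
    Finset.sum_sigma]
  refine Finset.sum_le_sum fun g hg => ?_
  simp only [norm_mul, FA.EffCheb.norm_pairW, mul_assoc, ← Finset.mul_sum]
  refine mul_le_mul_of_nonneg_left (le_trans (le_of_eq ?_) (hB g (Set.mem_toFinset.1 hg))) (by positivity)
  exact Finset.sum_congr rfl fun ψ _ => (mul_div_assoc _ _ _).symm

/-- A sum over a multiset of zeros, all at distance `x` from `1` but perhaps one. -/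
theorem sum_pow_le (R : Multiset ℂ) {b x : ℝ} {k : ℕ} (hb : 0 < b) (hx : 0 ≤ x) (hk : 1 ≤ k)
    (hgap : ∀ w ∈ R, b + x ≤ ‖w‖) :
    (R.map fun w => (b / ‖w‖) ^ (k + 1)).sum ≤
      (b / (b + x)) ^ (k - 1) * (R.map fun w => b ^ 2 / ‖w‖ ^ 2).sum := by
  rw [← Multiset.sum_map_mul_left]
  refine Multiset.sum_map_le_sum_map _ _ fun w hw => ?_
  have h0 : 0 < ‖w‖ := by linarith [hgap w hw]
  rw [← div_pow, show k + 1 = (k - 1) + 2 by omega, pow_add]
  exact mul_le_mul_of_nonneg_right (pow_le_pow_left₀ (by positivity)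
    (div_le_div_of_nonneg_left hb.le (by linarith) (hgap w hw)) _) (sq_nonneg _)

variable {E : ℂ → ℂ} (hE : Differentiable ℂ E)
  (hEL : ∀ s : ℂ, 1 < s.re → E s = (s - 1) * dedekindZeta L s)

/-- The part not from the zeros. -/
def restTerm (L : Type*) [Field L] [NumberField L] (k : ℕ) (b : ℝ) : ℝ :=
  height L 0 * (6 * (k + 1) * (nearQ * height L 0) * (4 * b) ^ (k + 1))

include hE hEL in
/-- **What the zeros of one cyclic subgroup contribute.** -/
theorem sum_pair_le (g : L ≃ₐ[K] L) {k : ℕ} (hk : 1 ≤ k) {b x : ℝ} (hb : 0 < b) (hb4 : b ≤ 1 / 4)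
    (hx : 0 ≤ x) :
    ((∀ ρ : ℂ, E ρ = 0 → ‖ρ - 3 / 2‖ ≤ 1 → x ≤ 1 - ρ.re) →
      ∑ ψ : CycDual g, ‖iteratedDeriv k (logDeriv (cycL ⟨g, ψ⟩)) ((1 + b : ℝ) : ℂ)‖ * b ^ (k + 1) / k ! ≤
        (b / (b + x)) ^ (k - 1) * (1 + 24 * nearQ * height L 0 * b) + restTerm L k b) ∧
    ∀ β : ℝ, β ≤ 1 → deriv E (β : ℂ) ≠ 0 →
      (∀ ρ : ℂ, E ρ = 0 → ‖ρ - 3 / 2‖ ≤ 1 → ρ ≠ (β : ℂ) → x ≤ 1 - ρ.re) →
      ∑ ψ : CycDual g, ‖iteratedDeriv k (logDeriv (cycL ⟨g, ψ⟩)) ((1 + b : ℝ) : ℂ)‖ * b ^ (k + 1) / k ! ≤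
        (b / (b + (1 - β))) ^ (k + 1) +
          (b / (b + x)) ^ (k - 1) * (1 + 24 * nearQ * height L 0 * b) + restTerm L k b := by
  haveI := FA.ArtinFE.finite_linear (cyc_comm g)
  letI := Fintype.ofFinite ((L ≃ₐ[IntermediateField.fixedField (Subgroup.zpowers g)] L) →* ℂˣ)
  obtain ⟨R, hR, hsimple, hsum, hder⟩ := exists_near_zeros (cyc_comm g) hE hEL hb hb4
  have hcard : (Fintype.card ((L ≃ₐ[IntermediateField.fixedField (Subgroup.zpowers g)] L) →* ℂˣ) : ℝ) ≤
      height L 0 := by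
    rw [← Nat.card_eq_fintype_card, FA.ArtinFE.card_linear (cyc_comm g)]
    refine le_trans (Nat.cast_le.2 ?_) (FA.DedekindZF.finrank_le_height L 0)
    rw [← Module.finrank_mul_finrank ℚ (IntermediateField.fixedField (Subgroup.zpowers g)) L]
    exact Nat.le_mul_of_pos_left _ Module.finrank_pos
  have hsub : ∑ ψ : CycDual g,
      ‖iteratedDeriv k (logDeriv (cycL ⟨g, ψ⟩)) ((1 + b : ℝ) : ℂ)‖ * b ^ (k + 1) / k ! ≤
        (R.map fun w => (b / ‖w‖) ^ (k + 1)).sum + restTerm L k b := by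
    refine le_trans ?_ ((hder k).trans (add_le_add le_rfl (mul_le_mul_of_nonneg_right hcard ?_)))
    · rw [← Finset.sum_image (s := (Finset.univ : Finset (CycDual g)))
        (f := fun χ => ‖iteratedDeriv k (logDeriv (clearedL (cyc_comm g) χ)) ((1 + b : ℝ) : ℂ)‖ *
          b ^ (k + 1) / k !) (g := liftChar g) fun a _ b _ e => liftChar_injective g e]
      exact Finset.sum_le_sum_of_subset_of_nonneg (Finset.subset_univ _) fun χ _ _ => by positivity
    · have := nearQ_pos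
      have := zero_lt_one.trans_le (one_le_height L 0)
      positivity
  have hnorm : ∀ w ∈ R, x ≤ 1 - (((1 + b : ℝ) : ℂ) + w).re → b + x ≤ ‖w‖ := fun w _ h => by
    rw [add_re, ofReal_re] at h
    linarith [(neg_le_abs w.re).trans (abs_re_le_norm w)]
  have hθ : 0 ≤ (b / (b + x)) ^ (k - 1) := pow_nonneg (div_nonneg hb.le (by linarith)) _
  refine ⟨fun hgap => hsub.trans (add_le_add ?_ le_rfl), fun β hβ hd hgap => hsub.trans (add_le_add ?_ le_rfl)⟩
  · exact (sum_pow_le R hb hx hk fun w hw => hnorm w hw (hgap _ (hR w hw).1 (hR w hw).2.1)).trans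
      (mul_le_mul_of_nonneg_left hsum hθ)
  · obtain ⟨w₀, hw₀⟩ : ∃ w : ℂ, w = (β : ℂ) - ((1 + b : ℝ) : ℂ) := ⟨_, rfl⟩
    have hw₀β : ((1 + b : ℝ) : ℂ) + w₀ = (β : ℂ) := by rw [hw₀]; ring
    have hnot : w₀ ∉ R.erase w₀ := hsimple w₀ (by rwa [hw₀β])
    have hrest : ((R.erase w₀).map fun w => (b / ‖w‖) ^ (k + 1)).sum ≤
        (b / (b + x)) ^ (k - 1) * (R.map fun w => b ^ 2 / ‖w‖ ^ 2).sum := by
      refine (sum_pow_le (R.erase w₀) hb hx hk fun w hw => ?_).trans (mul_le_mul_of_nonneg_left ?_ hθ)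
      · have hw' := Multiset.mem_of_mem_erase hw
        refine hnorm w hw' (hgap _ (hR w hw').1 (hR w hw').2.1 fun he => hnot ?_)
        exact (show w = w₀ by rw [hw₀, ← he]; ring) ▸ hw
      · obtain ⟨U, hU⟩ := Multiset.le_iff_exists_add.1 (Multiset.erase_le w₀ R)
        conv_rhs => rw [hU, Multiset.map_add, Multiset.sum_add]
        refine le_add_of_nonneg_right (Multiset.sum_nonneg fun y hy => ?_)
        obtain ⟨z, -, rfl⟩ := Multiset.mem_map.1 hy
        positivity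
    have h2 := mul_le_mul_of_nonneg_left hsum hθ
    have hn0 : ‖w₀‖ = b + (1 - β) := by
      rw [hw₀, ← ofReal_sub, norm_real, Real.norm_eq_abs, abs_of_nonpos (by linarith)]
      ring
    by_cases hmem : w₀ ∈ R
    · rw [← Multiset.sum_map_erase (f := fun w => (b / ‖w‖) ^ (k + 1)) hmem, hn0]
      linarith
    · have : 0 ≤ (b / (b + (1 - β))) ^ (k + 1) := pow_nonneg (div_nonneg hb.le (by linarith)) _
      rw [← Multiset.erase_of_notMem hmem]
      linarith

end FA.LMO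

end
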