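import Fermat.Agent.DeuringHeilbronn.Disc
import Fermat.Agent.EffectiveChebotarev.Zeros
import Fermat.Agent.DedekindPrimeIdeals.Dirichlet

/-!
# The zeros near `1` of the L-series of an abelian extension, at `s = 1 + b`

Landau's method on the disc about `3 / 2`, where every L-series is `exp (O (H))`, gives
`∑ b ^ 2 / |s - ρ| ^ 2 ≤ 1 + O (b H)` over all zeros of all the L-series together, and the `k`-th
derivatives of the logarithmic derivatives at `s` as sums of `(s - ρ) ^ (- k - 1)` up to `O (k H 4 ^ k)`.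
-/

set_option autoImplicit false
set_option linter.style.haveILetI false
set_option linter.unusedSectionVars false

noncomputable section

open NumberField Module Complex Metric Filter
open FA.DedekindZF (height growA one_le_height)
open FA.DeuringHeilbronn (Divides exists_divides)
open FA.EffCheb (clearedL isCleared_clearedL prod_clearedL)
open scoped Real Topology Nat Classical

namespace FA.LMO

theorem divides_prod {ι : Type*} (t : Finset ι) {f g : ι → ℂ → ℂ} {S : ι → Multiset ℂ}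
    (h : ∀ i ∈ t, Divides (f i) (g i) (S i)) :
    Divides (fun z => ∏ i ∈ t, f i z) (fun z => ∏ i ∈ t, g i z) (∑ i ∈ t, S i) := by
  refine ⟨Differentiable.fun_finsetProd fun i hi => (h i hi).diff,
    Finset.prod_ne_zero_iff.2 fun i hi => (h i hi).ne_zero, fun z => ?_⟩
  induction t using Finset.induction_on with
  | empty => simp
  | insert q t hq ih =>
    rw [Finset.prod_insert hq, Finset.prod_insert hq, Finset.sum_insert hq, Multiset.map_add,
      Multiset.prod_add, (h q (Finset.mem_insert_self q t)).eq z,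
      ih fun i hi => h i (Finset.mem_insert_of_mem hi)]
    ring

theorem sum_map_finsetSum {ι : Type*} (t : Finset ι) (S : ι → Multiset ℂ) (F : ℂ → ℝ) :
    ((∑ i ∈ t, S i).map F).sum = ∑ i ∈ t, ((S i).map F).sum := by
  induction t using Finset.induction_on with
  | empty => simp
  | insert q t hq ih =>
    rw [Finset.sum_insert hq, Finset.sum_insert hq, Multiset.map_add, Multiset.sum_add, ih]

/-- The zeros seen from another point. -/
theorem divides_translate {f g : ℂ → ℂ} {S : Multiset ℂ} (h : Divides f g S) {u : ℂ} (hu : g u ≠ 0) :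
    Divides (fun z => f (u + z)) (fun z => g (u + z)) (S.map fun w => w - u) := by
  refine ⟨h.diff.comp (differentiable_id.const_add u), by simpa using hu, fun z => ?_⟩
  show f (u + z) = _
  rw [h.eq, Multiset.map_map]
  congr 2
  exact Multiset.map_congr rfl fun w _ => by simp only [Function.comp_apply]; ring

/-- The zero-free factor off the centre. -/
theorem norm_iteratedDeriv_logDeriv_at_le {g : ℂ → ℂ} (hg : Differentiable ℂ g) {M : ℝ} (hM : 0 < M)
    (hne : ∀ z : ℂ, ‖z‖ ≤ 1 → g z ≠ 0) (hb : ∀ z : ℂ, ‖z‖ ≤ 1 → ‖g z‖ ≤ Real.exp M * ‖g 0‖) {u : ℂ}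
    (hu : ‖u‖ ≤ 1 / 2) (k : ℕ) :
    ‖iteratedDeriv k (logDeriv g) u‖ ≤ (k + 1)! * (6 * M) * 4 ^ (k + 1) := by
  have hin : ∀ z ∈ ball (0 : ℂ) 1, ‖z‖ ≤ 1 := fun z hz => (mem_ball_zero_iff.1 hz).le
  obtain ⟨h, hder, hh⟩ := FA.DLVP.norm_log_le one_pos hg.differentiableOn
    (fun z hz => hne z (hin z hz)) (Real.one_lt_exp_iff.2 hM) (fun z hz => hb z (hin z hz))
  rw [Real.log_exp] at hh
  have hu1 : u ∈ ball (0 : ℂ) 1 := mem_ball_zero_iff.2 (by linarith)
  have hev : deriv h =ᶠ[𝓝 u] logDeriv g := by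
    filter_upwards [isOpen_ball.mem_nhds hu1] with z hz
    rw [(hder z hz).deriv, logDeriv_apply]
  rw [← hev.iteratedDeriv_eq k, ← congrFun (iteratedDeriv_succ' (n := k) (f := h)) u]
  have hnorm : ∀ z ∈ closedBall u (1 / 4), ‖z‖ ≤ 3 / 4 := fun z hz => by
    rw [mem_closedBall, dist_eq_norm] at hz
    linarith [norm_le_norm_add_norm_sub' z u]
  have hsub : closedBall u (1 / 4) ⊆ ball (0 : ℂ) 1 := fun z hz =>
    mem_ball_zero_iff.2 (by linarith [hnorm z hz])
  refine (norm_iteratedDeriv_le_of_forall_mem_sphere_norm_le (k + 1) (show (0 : ℝ) < 1 / 4 by norm_num)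
    ?_ (C := 6 * M) fun z hz => ?_).trans (le_of_eq ?_)
  · refine DifferentiableOn.diffContOnCl ?_
    rw [closure_ball _ (by norm_num : (1 / 4 : ℝ) ≠ 0)]
    exact fun w hw => (hder w (hsub hw)).differentiableAt.differentiableWithinAt
  · have h3 := hnorm z (sphere_subset_closedBall hz)
    refine (hh z (hsub (sphere_subset_closedBall hz))).trans ?_
    rw [div_le_iff₀ (by linarith)]
    nlinarith
  · rw [one_div, inv_pow, div_inv_eq_mul]

/-- The exponent of the bounds on the disc. -/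
def nearQ : ℝ := 2 * growA + 22

theorem nearQ_pos : 0 < nearQ := by
  have := FA.EffCheb.growA_nonneg
  rw [nearQ]; linarith

variable {M L : Type*} [Field M] [NumberField M] [Field L] [NumberField L] [Algebra M L]
  [IsGalois M L] (hcomm : ∀ g h : L ≃ₐ[M] L, g * h = h * g)
  {E : ℂ → ℂ} (hE : Differentiable ℂ E)
  (hEL : ∀ s : ℂ, 1 < s.re → E s = (s - 1) * dedekindZeta L s)

/-- On the circle of radius `3` about `3 / 2`, relative to the centre. -/
theorem rim_le {f : ℂ → ℂ}
    (hup : ∀ z : ℂ, z.re ∈ Set.Icc (-4 : ℝ) 5 → ‖f z‖ ≤ Real.exp (growA * height L z.im))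
    (hlow : ∀ z : ℂ, 1 < z.re → z.re ≤ 3 → -Real.log ‖f z‖ ≤ 11 * height L z.im / (z.re - 1))
    (hne : f (3 / 2) ≠ 0) :
    ∀ z ∈ sphere (0 : ℂ) (3 * 1), ‖f (3 / 2 + z)‖ ≤
      Real.exp (nearQ * height L 0) * ‖f (3 / 2 + 0)‖ := fun z hz => by
  rw [mem_sphere_zero_iff_norm, mul_one] at hz
  have hr := abs_le.1 ((abs_re_le_norm z).trans hz.le)
  have hi := (abs_im_le_norm z).trans hz.le
  have hre : (3 / 2 + z).re = 3 / 2 + z.re := by rw [add_re]; norm_num
  have him : (3 / 2 + z).im = z.im := by rw [add_im]; norm_num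
  have h1 := hup (3 / 2 + z) ⟨by linarith, by linarith⟩
  have hh : height L z.im ≤ 2 * height L 0 :=
    FA.DedekindZF.height_le_two_mul L (Or.inl (by simpa using hi))
  have h2 := hlow (3 / 2) (by norm_num) (by norm_num)
  rw [show ((3 : ℂ) / 2).im = 0 by norm_num, show ((3 : ℂ) / 2).re = 3 / 2 by norm_num] at h2
  refine h1.trans ?_
  rw [him, add_zero, ← Real.exp_log (norm_pos_iff.2 hne), ← Real.exp_add, Real.exp_le_exp, nearQ]
  have := mul_le_mul_of_nonneg_left hh FA.EffCheb.growA_nonneg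
  norm_num at h2
  linarith

include hE hEL in
/-- **All the zeros near `1`, and the derivatives at `1 + b`.** -/
theorem exists_near_zeros [Fintype ((L ≃ₐ[M] L) →* ℂˣ)] {b : ℝ} (hb : 0 < b) (hb4 : b ≤ 1 / 4) :
    ∃ R : Multiset ℂ,
      (∀ w ∈ R, E (((1 + b : ℝ) : ℂ) + w) = 0 ∧ ‖((1 + b : ℝ) : ℂ) + w - 3 / 2‖ ≤ 1 ∧
        b ≤ -w.re) ∧
      (∀ w, deriv E (((1 + b : ℝ) : ℂ) + w) ≠ 0 → w ∉ R.erase w) ∧
      (R.map fun w => b ^ 2 / ‖w‖ ^ 2).sum ≤ 1 + 24 * nearQ * height L 0 * b ∧
      ∀ k : ℕ, ∑ ψ : (L ≃ₐ[M] L) →* ℂˣ,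
          ‖iteratedDeriv k (logDeriv (clearedL hcomm ψ)) ((1 + b : ℝ) : ℂ)‖ * b ^ (k + 1) / k ! ≤
        (R.map fun w => (b / ‖w‖) ^ (k + 1)).sum +
          Fintype.card ((L ≃ₐ[M] L) →* ℂˣ) * (6 * (k + 1) * (nearQ * height L 0) * (4 * b) ^ (k + 1)) := by
  obtain ⟨X, hX⟩ : ∃ X, X = nearQ * height L 0 := ⟨_, rfl⟩
  have hX0 : 0 < X := hX ▸ mul_pos nearQ_pos (zero_lt_one.trans_le (one_le_height L 0))
  obtain ⟨s, hs⟩ : ∃ s : ℂ, s = ((1 + b : ℝ) : ℂ) := ⟨_, rfl⟩
  obtain ⟨u, hu⟩ : ∃ u : ℂ, u = ((b - 1 / 2 : ℝ) : ℂ) := ⟨_, rfl⟩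
  have hsu : s = 3 / 2 + u := by rw [hs, hu]; push_cast; ring
  have hu2 : ‖u‖ ≤ 1 / 2 := by
    rw [hu, norm_real, Real.norm_eq_abs, abs_of_nonpos (by linarith)]; linarith
  have hsre : 1 < s.re := by rw [hs, ofReal_re]; linarith
  simp only [← hs, ← hX]
  have hcl : ∀ ψ : (L ≃ₐ[M] L) →* ℂˣ, ∀ z ∈ sphere (0 : ℂ) (3 * 1),
      ‖clearedL hcomm ψ (3 / 2 + z)‖ ≤ Real.exp X * ‖clearedL hcomm ψ (3 / 2 + 0)‖ := fun ψ =>
    hX ▸ rim_le (isCleared_clearedL hcomm ψ).upper (isCleared_clearedL hcomm ψ).lower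
      ((isCleared_clearedL hcomm ψ).ne_zero (by norm_num))
  have hex : ∀ ψ : (L ≃ₐ[M] L) →* ℂˣ, ∃ S g,
      Divides (fun z => clearedL hcomm ψ (3 / 2 + z)) g S ∧ (∀ w ∈ S, ‖w‖ ≤ 1) ∧
        ∀ z : ℂ, ‖z‖ ≤ 1 → g z ≠ 0 := fun ψ =>
    exists_divides (f := fun z => clearedL hcomm ψ (3 / 2 + z))
      ((isCleared_clearedL hcomm ψ).diff.comp (differentiable_id.const_add _))
      (by rw [add_zero]; exact (isCleared_clearedL hcomm ψ).ne_zero (by norm_num)) one_pos (hcl ψ)
  choose S g hd hS hg using hex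
  have hpd := divides_prod Finset.univ (fun ψ _ => hd ψ)
  rw [show (fun z => ∏ ψ : (L ≃ₐ[M] L) →* ℂˣ, clearedL hcomm ψ (3 / 2 + z)) = fun z => E (3 / 2 + z)
    from funext fun z => prod_clearedL hcomm hE hEL _] at hpd
  obtain ⟨T, hTdef⟩ : ∃ T, T = ∑ ψ, S ψ := ⟨_, rfl⟩
  obtain ⟨G, hGdef⟩ : ∃ G : ℂ → ℂ, G = fun z => ∏ ψ, g ψ z := ⟨_, rfl⟩
  rw [← hTdef, ← hGdef] at hpd
  have hG : ∀ z : ℂ, ‖z‖ ≤ 1 → G z ≠ 0 := fun z hz =>
    hGdef ▸ Finset.prod_ne_zero_iff.2 fun ψ _ => hg ψ z hz
  have hT1 : ∀ w ∈ T, ‖w‖ ≤ 1 := fun w hw => by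
    rw [hTdef, Multiset.mem_sum] at hw
    obtain ⟨ψ, -, hw⟩ := hw
    exact hS ψ w hw
  have htr := divides_translate hpd (u := u) (hG u (by linarith))
  have hzero : ∀ w ∈ T, E (3 / 2 + w) = 0 := fun w hw => hpd.mem_zero hw
  have hre1 : ∀ w ∈ T, b ≤ -(w - u).re := fun w hw => by
    have h1 : (3 / 2 + w).re < 1 :=
      not_le.1 fun h => FA.DedekindZF.cleared_ne_zero hE hEL h (hzero w hw)
    rw [add_re, show ((3 : ℂ) / 2).re = 3 / 2 by norm_num] at h1
    rw [sub_re, hu, ofReal_re]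
    linarith
  refine ⟨T.map fun w => w - u, fun x hx => ?_, fun x hx hmem => ?_, ?_, fun k => ?_⟩
  · obtain ⟨w, hw, rfl⟩ := Multiset.mem_map.1 hx
    rw [show s + (w - u) = 3 / 2 + w by rw [hsu]; ring]
    refine ⟨hzero w hw, ?_, hre1 w hw⟩
    rw [add_sub_cancel_left]
    exact hT1 w hw
  · obtain ⟨U, hU⟩ := Multiset.exists_cons_of_mem (Multiset.mem_of_mem_erase hmem)
    rw [hU, Multiset.erase_cons_head] at hmem
    obtain ⟨V, hV⟩ := Multiset.exists_cons_of_mem hmem
    have he : (fun z => E (s + z)) = fun z => (z - x) * ((z - x) *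
        ((V.map fun w => z - w).prod * G (u + z))) := funext fun z => by
      rw [hsu, add_assoc]
      refine (htr.eq z).trans ?_
      rw [hU, hV, Multiset.map_cons, Multiset.map_cons, Multiset.prod_cons, Multiset.prod_cons]
      ring
    have hdz : Differentiable ℂ fun z => (V.map fun w => z - w).prod * G (u + z) :=
      (FA.DeuringHeilbronn.differentiable_linProd V).mul
        (hpd.diff.comp (differentiable_id.const_add u))
    have hd0 : deriv (fun z => E (s + z)) x = 0 := by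
      rw [he]
      have h1 : HasDerivAt (fun z => z - x) 1 x := (hasDerivAt_id' x).sub_const x
      refine (h1.mul (h1.mul (hdz x).hasDerivAt)).deriv.trans ?_
      simp
    rw [deriv_comp_const_add] at hd0
    exact hx hd0
  · have hlow : (LSeries (fun n => (FA.DedekindPIT.mangoldtK L n : ℂ)) s).re =
        -(logDeriv E s).re + b⁻¹ := by
      rw [(FA.DedekindPIT.LSeries_mangoldtK hE hEL hsre).2, add_re, neg_re, logDeriv_apply,
        show (s - 1)⁻¹ = ((b⁻¹ : ℝ) : ℂ) by rw [hs]; push_cast; ring, ofReal_re]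
    have hnn : 0 ≤ (LSeries (fun n => (FA.DedekindPIT.mangoldtK L n : ℂ)) s).re := by
      rw [LSeries, Complex.re_tsum (FA.DedekindPIT.LSeries_mangoldtK hE hEL hsre).1]
      refine tsum_nonneg fun n => ?_
      rcases eq_or_ne n 0 with rfl | hn
      · simp
      rw [LSeries.term_of_ne_zero hn, hs, ← ofReal_natCast,
        ← ofReal_cpow (Nat.cast_nonneg n), ← ofReal_div, ofReal_re]
      exact div_nonneg (FA.DedekindPIT.mangoldtK_nonneg L n) (Real.rpow_nonneg (Nat.cast_nonneg n) _)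
    have hne0 : ∀ x ∈ T.map (fun w => w - u), x ≠ 0 := fun x hx h0 => by
      obtain ⟨w, hw, rfl⟩ := Multiset.mem_map.1 hx
      have := hre1 w hw
      rw [h0, zero_re] at this
      linarith
    have hi := htr.iteratedDeriv_logDeriv 0 hne0
    have e1 : (fun z => E (3 / 2 + (u + z))) = fun z => E (s + z) := funext fun z => by
      rw [hsu, add_assoc]
    rw [e1, iteratedDeriv_zero, iteratedDeriv_zero, logDeriv_apply, deriv_comp_const_add,
      logDeriv_apply, deriv_comp_const_add, add_zero, add_zero, pow_zero, one_mul,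
      Nat.factorial_zero, Nat.cast_one, one_mul, zero_add, ← logDeriv_apply, ← logDeriv_apply] at hi
    have hrim : ∀ z ∈ sphere (0 : ℂ) (3 * 1), ‖E (3 / 2 + z)‖ ≤ Real.exp X * ‖E (3 / 2 + 0)‖ :=
      hX ▸ rim_le (fun z hz => FA.DedekindPIT.norm_cleared_le hE hEL hz)
        (fun z h1 h3 => FA.DedekindPIT.neg_log_cleared_le_div hEL h1 h3)
        (FA.DedekindZF.cleared_ne_zero hE hEL (by norm_num))
    have hGb := norm_iteratedDeriv_logDeriv_at_le hpd.diff hX0 hG (fun z hz =>
      (le_mul_of_one_le_left (norm_nonneg _) (one_le_pow₀ one_le_two)).trans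
        (hpd.two_pow_mul_le one_pos hT1 hrim (mem_closedBall_zero_iff.2 (by linarith)))) hu2 0
    rw [iteratedDeriv_zero, zero_add, Nat.factorial_one, Nat.cast_one, one_mul, pow_one] at hGb
    have hGre := (neg_le_abs _).trans ((abs_re_le_norm (logDeriv G u)).trans hGb)
    have hre' := congrArg Complex.re hi
    rw [add_re] at hre'
    have hsum : b * ((T.map fun w => w - u).map fun x => ((-x) ^ 1)⁻¹).sum.re =
        ((T.map fun w => w - u).map fun x => b * ((-x) ^ 1)⁻¹.re).sum := by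
      induction T.map (fun w => w - u) using Multiset.induction_on with
      | empty => simp
      | cons a A ih => simp only [Multiset.map_cons, Multiset.sum_cons, add_re, mul_add, ih]
    have hle : ((T.map fun w => w - u).map fun x => b ^ 2 / ‖x‖ ^ 2).sum ≤
        ((T.map fun w => w - u).map fun x => b * ((-x) ^ 1)⁻¹.re).sum := by
      refine Multiset.sum_map_le_sum_map _ _ fun x hx => ?_
      obtain ⟨w, hw, rfl⟩ := Multiset.mem_map.1 hx
      rw [pow_one ((-(w - u)) : ℂ), inv_re, normSq_eq_norm_sq, norm_neg, neg_re, sq b, mul_div_assoc]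
      exact mul_le_mul_of_nonneg_left
        (div_le_div_of_nonneg_right (hre1 w hw) (sq_nonneg _)) hb.le
    have hbb : b * b⁻¹ = 1 := mul_inv_cancel₀ hb.ne'
    have h5 := mul_nonneg hb.le (sub_nonneg.2 hGre)
    have h6 := mul_nonneg hb.le hnn
    rw [hlow] at h6
    rw [hre', mul_add, mul_neg, mul_add, hsum, hbb] at h6
    rw [mul_assoc (24 * nearQ), show 24 * nearQ * (height L 0 * b) = 24 * (nearQ * height L 0) * b by ring,
      ← hX]
    linarith
  · have hterm : ∀ ψ : (L ≃ₐ[M] L) →* ℂˣ,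
        ‖iteratedDeriv k (logDeriv (clearedL hcomm ψ)) s‖ * b ^ (k + 1) / k ! ≤
          ((S ψ).map fun w => (b / ‖w - u‖) ^ (k + 1)).sum +
            6 * (k + 1) * X * (4 * b) ^ (k + 1) := fun ψ => by
      have hne0 : ∀ x ∈ (S ψ).map (fun w => w - u), x ≠ 0 := fun x hx h0 => by
        obtain ⟨w, hw, rfl⟩ := Multiset.mem_map.1 hx
        have hwT : w ∈ T := hTdef ▸ Multiset.mem_sum.2 ⟨ψ, Finset.mem_univ ψ, hw⟩
        have := hre1 w hwT
        rw [h0, zero_re] at this
        linarith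
      have hi := (divides_translate (hd ψ) (u := u) (hg ψ u (by linarith))).iteratedDeriv_logDeriv k
        hne0
      have e1 : (logDeriv fun z => clearedL hcomm ψ (3 / 2 + (u + z))) =
          fun z => logDeriv (clearedL hcomm ψ) (s + z) := funext fun z => by
        rw [logDeriv_apply, logDeriv_apply, show (fun z => clearedL hcomm ψ (3 / 2 + (u + z))) =
          fun z => clearedL hcomm ψ (s + z) from funext fun z => by rw [hsu, add_assoc],
          deriv_comp_const_add, hsu, add_assoc]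
      have e2 : (logDeriv fun z => g ψ (u + z)) = fun z => logDeriv (g ψ) (u + z) := funext fun z => by
        rw [logDeriv_apply, logDeriv_apply, deriv_comp_const_add]
      rw [e1, e2, iteratedDeriv_comp_const_add, iteratedDeriv_comp_const_add] at hi
      simp only [add_zero] at hi
      have hgb := norm_iteratedDeriv_logDeriv_at_le (hd ψ).diff hX0 (hg ψ) (fun z hz =>
        (le_mul_of_one_le_left (norm_nonneg _) (one_le_pow₀ one_le_two)).trans
          ((hd ψ).two_pow_mul_le one_pos (hS ψ) (hcl ψ) (mem_closedBall_zero_iff.2 (by linarith))))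
        hu2 k
      rw [hi, Multiset.map_map, div_le_iff₀ (by positivity)]
      refine (mul_le_mul_of_nonneg_right (norm_add_le _ _) (by positivity)).trans ?_
      rw [add_mul, add_mul]
      refine add_le_add ?_ ?_
      · rw [norm_mul, norm_mul, norm_pow, norm_neg, norm_one, one_pow, one_mul,
          RCLike.norm_natCast, mul_assoc, mul_comm _ (k ! : ℝ)]
        refine mul_le_mul_of_nonneg_left ?_ (Nat.cast_nonneg _)
        refine (mul_le_mul_of_nonneg_right (norm_multiset_sum_le _) (by positivity)).trans (le_of_eq ?_)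
        rw [Multiset.map_map, ← Multiset.sum_map_mul_right]
        refine congrArg Multiset.sum (Multiset.map_congr rfl fun w _ => ?_)
        simp only [Function.comp_apply, norm_inv, norm_pow, norm_neg, div_pow]
        ring
      · refine (mul_le_mul_of_nonneg_right hgb (by positivity)).trans (le_of_eq ?_)
        rw [Nat.factorial_succ, mul_pow]
        push_cast
        ring
    refine (Finset.sum_le_sum fun ψ _ => hterm ψ).trans (le_of_eq ?_)
    rw [Finset.sum_add_distrib, Finset.sum_const, nsmul_eq_mul, Multiset.map_map, hTdef,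
      sum_map_finsetSum, Finset.card_univ]
    rfl

end FA.LMO

end
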